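import Mathlib

/-!
# CHEB / Tier 2 / piece CYC: the character-sum argument (helper581)

Abstract form of Dirichlet's argument for a family of nonnegative weights `u s p`
(`p` a rational prime, `s > 1`), twisted by the Dirichlet characters mod `m`:
`vSum (u s) χ = ∑' p, χ p * u s p`.

Hypotheses (for a unit `a` mod `m` of order `n`):
* the weights live on primes whose class mod `m` is killed by every `χ` with `χ a = 1`;
* `∑' p, u s p = log (1/(s-1)) + O(1)`;
* `n * ∑'_{p ≡ 1} u s p ≥ log (1/(s-1)) - O(1)`;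
* for `χ a ≠ 1`: `re (vSum χ)` is bounded above near `1`, and if it is also bounded below
  near `1`, then `vSum χ` is bounded on `(1, 2]` (this encodes "the `L`-function has a limit
  at `1`, and its logarithm is bounded if the limit is not zero").

Conclusion: some prime `p ≡ a` mod `m` has nonzero weight.
-/

set_option autoImplicit false
set_option linter.unusedSectionVars false

open Filter Topology

namespace Fermat.Agent.Lib.Cheb.H581

noncomputable section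

variable {m : ℕ} [NeZero m]

/-- The twisted prime sum `∑' p, χ p * u p`. -/
def vSum (u : Nat.Primes → ℝ) (χ : DirichletCharacter ℂ m) : ℂ :=
  ∑' p : Nat.Primes, χ (((p : ℕ) : ZMod m)) * ((u p : ℝ) : ℂ)

lemma norm_vterm_le (u : Nat.Primes → ℝ) (hu0 : ∀ p, 0 ≤ u p) (χ : DirichletCharacter ℂ m)
    (p : Nat.Primes) : ‖χ (((p : ℕ) : ZMod m)) * ((u p : ℝ) : ℂ)‖ ≤ u p := by
  rw [norm_mul, Complex.norm_real, Real.norm_of_nonneg (hu0 p)]
  calc ‖χ (((p : ℕ) : ZMod m))‖ * u p ≤ 1 * u p :=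
        mul_le_mul_of_nonneg_right (DirichletCharacter.norm_le_one χ _) (hu0 p)
    _ = u p := one_mul _

lemma summable_vterm (u : Nat.Primes → ℝ) (hu0 : ∀ p, 0 ≤ u p) (hu : Summable u)
    (χ : DirichletCharacter ℂ m) :
    Summable (fun p : Nat.Primes => χ (((p : ℕ) : ZMod m)) * ((u p : ℝ) : ℂ)) :=
  Summable.of_norm_bounded hu (norm_vterm_le u hu0 χ)

lemma norm_vSum_le (u : Nat.Primes → ℝ) (hu0 : ∀ p, 0 ≤ u p) (hu : Summable u)
    (χ : DirichletCharacter ℂ m) : ‖vSum u χ‖ ≤ ∑' p, u p :=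
  tsum_of_norm_bounded hu.hasSum (norm_vterm_le u hu0 χ)

/-- Characters killing the support of `u` have `vSum = ∑' u`. -/
lemma vSum_eq_of_trivial (u : Nat.Primes → ℝ) (χ : DirichletCharacter ℂ m)
    (h : ∀ p, u p ≠ 0 → χ (((p : ℕ) : ZMod m)) = 1) :
    vSum u χ = ((∑' p, u p : ℝ) : ℂ) := by
  rw [vSum, Complex.ofReal_tsum]
  refine tsum_congr fun p => ?_
  by_cases hp : u p = 0
  · rw [hp, Complex.ofReal_zero, mul_zero]
  · rw [h p hp, one_mul]

/-- Orthogonality, summed over the primes. -/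
lemma sum_char_mul_vSum (u : Nat.Primes → ℝ) (hu0 : ∀ p, 0 ≤ u p) (hu : Summable u)
    (b : (ZMod m)ˣ) :
    ∑ χ : DirichletCharacter ℂ m, χ ((b : ZMod m)⁻¹) * vSum u χ =
      (m.totient : ℂ) *
        ((∑' p : Nat.Primes, (if (b : ZMod m) = ((p : ℕ) : ZMod m) then u p else 0) : ℝ) : ℂ) := by
  have h1 : ∀ χ : DirichletCharacter ℂ m, χ ((b : ZMod m)⁻¹) * vSum u χ =
      ∑' p : Nat.Primes, χ ((b : ZMod m)⁻¹) * (χ (((p : ℕ) : ZMod m)) * ((u p : ℝ) : ℂ)) := by
    intro χ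
    rw [vSum, tsum_mul_left]
  simp only [h1]
  rw [← Summable.tsum_finsetSum (fun χ _ => (summable_vterm u hu0 hu χ).mul_left _),
    Complex.ofReal_tsum, ← tsum_mul_left]
  refine tsum_congr fun p => ?_
  have h2 := DirichletCharacter.sum_char_inv_mul_char_eq ℂ (n := m) b.isUnit
    (((p : ℕ) : ZMod m))
  calc ∑ χ : DirichletCharacter ℂ m,
        χ ((b : ZMod m)⁻¹) * (χ (((p : ℕ) : ZMod m)) * ((u p : ℝ) : ℂ))
      = (∑ χ : DirichletCharacter ℂ m, χ ((b : ZMod m)⁻¹) * χ (((p : ℕ) : ZMod m))) *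
          ((u p : ℝ) : ℂ) := by
        rw [Finset.sum_mul]
        refine Finset.sum_congr rfl fun χ _ => ?_
        ring
    _ = _ := by
        rw [h2]
        split_ifs with h
        · rfl
        · simp

lemma sum_vSum (u : Nat.Primes → ℝ) (hu0 : ∀ p, 0 ≤ u p) (hu : Summable u) :
    ∑ χ : DirichletCharacter ℂ m, vSum u χ =
      (m.totient : ℂ) *
        ((∑' p : Nat.Primes, (if ((p : ℕ) : ZMod m) = 1 then u p else 0) : ℝ) : ℂ) := by
  have h := sum_char_mul_vSum (m := m) u hu0 hu 1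
  have h1 : ((1 : (ZMod m)ˣ) : ZMod m)⁻¹ = 1 := by
    rw [Units.val_one]
    exact ZMod.inv_one m
  have h2 : ∀ χ : DirichletCharacter ℂ m, χ (((1 : (ZMod m)ˣ) : ZMod m)⁻¹) * vSum u χ =
      vSum u χ := by
    intro χ
    rw [h1, map_one, one_mul]
  rw [Finset.sum_congr rfl (fun χ _ => h2 χ)] at h
  rw [h]
  congr 2
  refine tsum_congr fun p => ?_
  rw [Units.val_one]
  by_cases hp : ((p : ℕ) : ZMod m) = 1
  · rw [if_pos hp, if_pos hp.symm]
  · rw [if_neg hp, if_neg (fun h => hp h.symm)]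

/-- The number of characters trivial at `a`, times the order of `a`, is `φ(m)`. -/
lemma card_trivial_mul_orderOf (a : (ZMod m)ˣ) :
    ((Finset.univ.filter (fun χ : DirichletCharacter ℂ m => χ (a : ZMod m) = 1)).card : ℂ) *
      (orderOf a : ℂ) = (m.totient : ℂ) := by
  classical
  set n := orderOf a with hn
  have hnpos : 0 < n := orderOf_pos a
  -- double sum
  have hinner : ∀ χ : DirichletCharacter ℂ m,
      ∑ j ∈ Finset.range n, χ ((a : ZMod m) ^ j) =
        if χ (a : ZMod m) = 1 then (n : ℂ) else 0 := by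
    intro χ
    simp only [map_pow]
    split_ifs with h
    · rw [h]
      simp
    · have hz : χ (a : ZMod m) ^ n = 1 := by
        rw [← map_pow, ← Units.val_pow_eq_pow_val, hn, pow_orderOf_eq_one, Units.val_one,
          map_one]
      have := geom_sum_mul (χ (a : ZMod m)) n
      rw [hz, sub_self] at this
      rcases mul_eq_zero.mp this with h1 | h1
      · exact h1
      · exact absurd (sub_eq_zero.mp h1) h
  have houter : ∀ j ∈ Finset.range n,
      ∑ χ : DirichletCharacter ℂ m, χ ((a : ZMod m) ^ j) =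
        if j = 0 then (m.totient : ℂ) else 0 := by
    intro j hj
    rw [DirichletCharacter.sum_characters_eq]
    have hj' : j < n := Finset.mem_range.mp hj
    by_cases h0 : j = 0
    · subst h0
      simp
    · rw [if_neg h0, if_neg]
      intro h1
      have h2 : a ^ j = 1 := by
        apply Units.ext
        rw [Units.val_pow_eq_pow_val, h1, Units.val_one]
      have h3 := orderOf_dvd_of_pow_eq_one h2
      have := Nat.le_of_dvd (Nat.pos_of_ne_zero h0) h3
      omega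
  have hsum : ∑ χ : DirichletCharacter ℂ m, ∑ j ∈ Finset.range n, χ ((a : ZMod m) ^ j) =
      (m.totient : ℂ) := by
    rw [Finset.sum_comm, Finset.sum_congr rfl houter, Finset.sum_ite_eq' (Finset.range n) 0]
    rw [if_pos (Finset.mem_range.mpr hnpos)]
  rw [Finset.sum_congr rfl (fun χ _ => hinner χ), ← Finset.sum_filter, Finset.sum_const,
    nsmul_eq_mul] at hsum
  exact hsum

/-- `log (1/(s-1))` is unbounded on `(1, 2]`. -/
lemma exists_log_gt (K : ℝ) : ∃ s : ℝ, 1 < s ∧ s ≤ 2 ∧ K < Real.log (1 / (s - 1)) := by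
  refine ⟨1 + Real.exp (-(|K| + 1)), ?_, ?_, ?_⟩
  · linarith [Real.exp_pos (-(|K| + 1))]
  · have : Real.exp (-(|K| + 1)) ≤ 1 := by
      rw [Real.exp_le_one_iff]
      linarith [abs_nonneg K]
    linarith
  · rw [add_sub_cancel_left, one_div, ← Real.exp_neg, Real.log_exp, neg_neg]
    linarith [le_abs_self K]

/-- **The character-sum argument.** -/
theorem exists_prime_of_charSum
    (a : (ZMod m)ˣ) (n : ℕ) (hn : orderOf a = n)
    (u : ℝ → Nat.Primes → ℝ) (hu0 : ∀ s p, 0 ≤ u s p)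
    (husum : ∀ s, 1 < s → Summable (u s))
    (hX0 : ∀ χ : DirichletCharacter ℂ m, χ (a : ZMod m) = 1 →
      ∀ s p, u s p ≠ 0 → χ (((p : ℕ) : ZMod m)) = 1)
    (hZ : ∃ C : ℝ, ∀ s, 1 < s → s ≤ 2 → |∑' p, u s p - Real.log (1 / (s - 1))| ≤ C)
    (hLB : ∃ C : ℝ, ∀ s, 1 < s → s ≤ 2 → Real.log (1 / (s - 1)) - C ≤
      n * ∑' p : Nat.Primes, (if ((p : ℕ) : ZMod m) = 1 then u s p else 0))
    (hQ : ∀ χ : DirichletCharacter ℂ m, χ (a : ZMod m) ≠ 1 →
      (∃ U : ℝ, ∀ᶠ s in 𝓝[>] (1 : ℝ), (vSum (u s) χ).re ≤ U) ∧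
      ((∃ C : ℝ, ∀ᶠ s in 𝓝[>] (1 : ℝ), -C ≤ (vSum (u s) χ).re) →
        ∃ B : ℝ, ∀ s, 1 < s → s ≤ 2 → ‖vSum (u s) χ‖ ≤ B)) :
    ∃ (p : Nat.Primes) (s : ℝ), u s p ≠ 0 ∧ ((p : ℕ) : ZMod m) = (a : ZMod m) := by
  classical
  obtain ⟨CZ, hCZ⟩ := hZ
  obtain ⟨CL, hCL⟩ := hLB
  set X₀ : Finset (DirichletCharacter ℂ m) :=
    Finset.univ.filter (fun χ : DirichletCharacter ℂ m => χ (a : ZMod m) = 1) with hX₀
  set Y : Finset (DirichletCharacter ℂ m) :=
    Finset.univ.filter (fun χ : DirichletCharacter ℂ m => ¬ χ (a : ZMod m) = 1) with hY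
  have hnpos : 0 < n := hn ▸ orderOf_pos a
  have hnR : (0 : ℝ) < n := by exact_mod_cast hnpos
  have hcard : (X₀.card : ℝ) * n = m.totient := by
    have h := card_trivial_mul_orderOf (m := m) a
    rw [hn] at h
    exact_mod_cast h
  have hone : (1 : DirichletCharacter ℂ m) ∈ X₀ := by
    rw [hX₀, Finset.mem_filter]
    exact ⟨Finset.mem_univ _, MulChar.one_apply_coe a⟩
  have hX₀pos : (1 : ℝ) ≤ X₀.card := by
    exact_mod_cast Finset.card_pos.mpr ⟨_, hone⟩
  have hφ0 : (0 : ℝ) ≤ m.totient := Nat.cast_nonneg _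
  have hev2 : ∀ᶠ s in 𝓝[>] (1 : ℝ), s ≤ 2 :=
    mem_nhdsWithin_of_mem_nhds (Iic_mem_nhds (by norm_num))
  -- values on `X₀`
  have hval : ∀ s, ∀ χ ∈ X₀, vSum (u s) χ = ((∑' p, u s p : ℝ) : ℂ) := by
    intro s χ hχ
    rw [hX₀, Finset.mem_filter] at hχ
    exact vSum_eq_of_trivial (u s) χ (fun p hp => hX0 χ hχ.2 s p hp)
  -- upper bounds near `1`
  have hU : ∀ χ : DirichletCharacter ℂ m, ∃ U : ℝ, χ (a : ZMod m) ≠ 1 →
      ∀ᶠ s in 𝓝[>] (1 : ℝ), (vSum (u s) χ).re ≤ U := by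
    intro χ
    by_cases h : χ (a : ZMod m) = 1
    · exact ⟨0, fun h' => absurd h h'⟩
    · obtain ⟨U, hU⟩ := (hQ χ h).1
      exact ⟨U, fun _ => hU⟩
  choose U hU using hU
  have hall : ∀ᶠ s in 𝓝[>] (1 : ℝ), ∀ χ : DirichletCharacter ℂ m,
      χ (a : ZMod m) ≠ 1 → (vSum (u s) χ).re ≤ U χ := by
    rw [Filter.eventually_all]
    intro χ
    by_cases h : χ (a : ZMod m) = 1
    · exact Filter.Eventually.of_forall fun s h' => absurd h h'
    · exact (hU χ h).mono fun s hs _ => hs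
  -- Step B: lower bounds near `1`
  have hB : ∀ χ₁ : DirichletCharacter ℂ m, χ₁ (a : ZMod m) ≠ 1 →
      ∃ C : ℝ, ∀ᶠ s in 𝓝[>] (1 : ℝ), -C ≤ (vSum (u s) χ₁).re := by
    intro χ₁ h₁
    have hχ₁Y : χ₁ ∈ Y := by
      rw [hY, Finset.mem_filter]
      exact ⟨Finset.mem_univ _, h₁⟩
    set K₁ : ℝ := ∑ χ ∈ Y.erase χ₁, U χ with hK₁
    refine ⟨(m.totient : ℝ) * (CL + CZ) / n + K₁, ?_⟩
    filter_upwards [hall, hev2, self_mem_nhdsWithin] with s hs hs2 hs1
    have hs1' : (1 : ℝ) < s := hs1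
    have hsum := congrArg Complex.re (sum_vSum (m := m) (u s) (hu0 s) (husum s hs1'))
    rw [Complex.re_sum] at hsum
    have hre : ((m.totient : ℂ) *
        ((∑' p : Nat.Primes, (if ((p : ℕ) : ZMod m) = 1 then u s p else 0) : ℝ) : ℂ)).re =
        (m.totient : ℝ) *
          ∑' p : Nat.Primes, (if ((p : ℕ) : ZMod m) = 1 then u s p else 0) := by
      simp
    rw [hre, ← Finset.sum_filter_add_sum_filter_not Finset.univ
      (fun χ : DirichletCharacter ℂ m => χ (a : ZMod m) = 1)] at hsum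
    have hA : ∑ χ ∈ X₀, (vSum (u s) χ).re = X₀.card * ∑' p, u s p := by
      rw [Finset.sum_congr rfl (fun χ hχ => by rw [hval s χ hχ, Complex.ofReal_re]),
        Finset.sum_const, nsmul_eq_mul]
    have hBY : ∑ χ ∈ Y, (vSum (u s) χ).re ≤ (vSum (u s) χ₁).re + K₁ := by
      rw [← Finset.add_sum_erase Y _ hχ₁Y]
      refine add_le_add le_rfl (Finset.sum_le_sum fun χ hχ => ?_)
      have hχY : χ ∈ Y := Finset.mem_of_mem_erase hχ
      rw [hY, Finset.mem_filter] at hχY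
      exact hs χ hχY.2
    rw [← hX₀, ← hY, hA] at hsum
    have h1 := hCL s hs1' hs2
    have h2 := (abs_le.mp (hCZ s hs1' hs2)).2
    set Λ := Real.log (1 / (s - 1)) with hΛ
    set T₁ := ∑' p : Nat.Primes, (if ((p : ℕ) : ZMod m) = 1 then u s p else 0) with hT₁
    set T := ∑' p, u s p with hT
    -- n * (X₀.card * T + ∑_Y) = n * φ * T₁ ≥ φ * (Λ - CL)
    have h3 : (m.totient : ℝ) * (Λ - CL) ≤ (m.totient : ℝ) * (n * T₁) :=
      mul_le_mul_of_nonneg_left h1 hφ0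
    have h4 : (X₀.card : ℝ) * n * T ≤ (X₀.card : ℝ) * n * (Λ + CZ) := by
      refine mul_le_mul_of_nonneg_left (by linarith) ?_
      rw [hcard]
      exact hφ0
    rw [hcard] at h4
    have h5 : (n : ℝ) * ((X₀.card : ℝ) * T) = (m.totient : ℝ) * T := by
      rw [← hcard]
      ring
    have h6 : (n : ℝ) * (∑ χ ∈ Y, (vSum (u s) χ).re) ≤
        n * ((vSum (u s) χ₁).re + K₁) := mul_le_mul_of_nonneg_left hBY hnR.le
    have h7 : (n : ℝ) * ((X₀.card : ℝ) * T + ∑ χ ∈ Y, (vSum (u s) χ).re) =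
        (m.totient : ℝ) * (n * T₁) := by
      rw [hsum]
      ring
    have key : (n : ℝ) * (-((m.totient : ℝ) * (CL + CZ) / n + K₁)) ≤
        n * (vSum (u s) χ₁).re := by
      have h8 : (n : ℝ) * ((m.totient : ℝ) * (CL + CZ) / n) = (m.totient : ℝ) * (CL + CZ) := by
        field_simp
      have h9 : (n : ℝ) * (-((m.totient : ℝ) * (CL + CZ) / n + K₁)) =
          -((m.totient : ℝ) * (CL + CZ)) - n * K₁ := by
        rw [neg_add, mul_add, mul_neg, mul_neg, h8]
        ring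
      rw [h9]
      rw [mul_add] at h7
      rw [mul_add] at h6
      linarith
    exact le_of_mul_le_mul_left key hnR
  -- Step C: bounds on `(1, 2]`
  have hBd : ∀ χ : DirichletCharacter ℂ m, ∃ B : ℝ, χ (a : ZMod m) ≠ 1 →
      ∀ s, 1 < s → s ≤ 2 → ‖vSum (u s) χ‖ ≤ B := by
    intro χ
    by_cases h : χ (a : ZMod m) = 1
    · exact ⟨0, fun h' => absurd h h'⟩
    · obtain ⟨B, hB'⟩ := (hQ χ h).2 (hB χ h)
      exact ⟨B, fun _ => hB'⟩
  choose Bd hBd using hBd
  -- Step D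
  by_contra hcon
  push Not at hcon
  set K₂ : ℝ := ∑ χ ∈ Y, Bd χ with hK₂
  obtain ⟨s, hs1, hs2, hsΛ⟩ := exists_log_gt (K₂ + CZ)
  have hzero : ∑' p : Nat.Primes,
      (if (a : ZMod m) = ((p : ℕ) : ZMod m) then u s p else 0) = 0 := by
    have : (fun p : Nat.Primes =>
        (if (a : ZMod m) = ((p : ℕ) : ZMod m) then u s p else 0)) = fun _ => 0 := by
      funext p
      split_ifs with h
      · by_contra h0
        exact hcon p s h0 h.symm
      · rfl
    rw [this, tsum_zero]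
  have hsum := congrArg Complex.re (sum_char_mul_vSum (m := m) (u s) (hu0 s) (husum s hs1) a)
  rw [hzero, Complex.ofReal_zero, mul_zero, Complex.zero_re, Complex.re_sum,
    ← Finset.sum_filter_add_sum_filter_not Finset.univ
      (fun χ : DirichletCharacter ℂ m => χ (a : ZMod m) = 1), ← hX₀, ← hY] at hsum
  have hinv : ∀ χ ∈ X₀, χ ((a : ZMod m)⁻¹) = 1 := by
    intro χ hχ
    rw [hX₀, Finset.mem_filter] at hχ
    have h1 : χ ((a : ZMod m)⁻¹) * χ (a : ZMod m) = 1 := by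
      rw [← map_mul, ZMod.inv_mul_of_unit _ a.isUnit, map_one]
    rwa [hχ.2, mul_one] at h1
  have hA : ∑ χ ∈ X₀, (χ ((a : ZMod m)⁻¹) * vSum (u s) χ).re = X₀.card * ∑' p, u s p := by
    rw [Finset.sum_congr rfl (fun χ hχ => by
      rw [hinv χ hχ, one_mul, hval s χ hχ, Complex.ofReal_re]),
      Finset.sum_const, nsmul_eq_mul]
  have hBY : -K₂ ≤ ∑ χ ∈ Y, (χ ((a : ZMod m)⁻¹) * vSum (u s) χ).re := by
    rw [hK₂, ← Finset.sum_neg_distrib]
    refine Finset.sum_le_sum fun χ hχ => ?_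
    rw [hY, Finset.mem_filter] at hχ
    have h1 : ‖χ ((a : ZMod m)⁻¹) * vSum (u s) χ‖ ≤ Bd χ := by
      rw [norm_mul]
      calc ‖χ ((a : ZMod m)⁻¹)‖ * ‖vSum (u s) χ‖ ≤ 1 * Bd χ :=
            mul_le_mul (DirichletCharacter.norm_le_one χ _) (hBd χ hχ.2 s hs1 hs2)
              (norm_nonneg _) zero_le_one
        _ = Bd χ := one_mul _
    have h2 := Complex.abs_re_le_norm (χ ((a : ZMod m)⁻¹) * vSum (u s) χ)
    have h3 := neg_abs_le (χ ((a : ZMod m)⁻¹) * vSum (u s) χ).re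
    linarith
  rw [hA] at hsum
  have hT0 : 0 ≤ ∑' p, u s p := tsum_nonneg (hu0 s)
  have h2 := (abs_le.mp (hCZ s hs1 hs2)).1
  have h3 : ∑' p, u s p ≤ (X₀.card : ℝ) * ∑' p, u s p := by
    calc ∑' p, u s p = 1 * ∑' p, u s p := (one_mul _).symm
      _ ≤ (X₀.card : ℝ) * ∑' p, u s p := mul_le_mul_of_nonneg_right hX₀pos hT0
  linarith

end

end Fermat.Agent.Lib.Cheb.H581
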