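import Fermat.Agent.Lib.Cheb.Spec
import Fermat.Agent.Lib.EulerProd.PrimeSum
import Fermat.Agent.Lib.Cheb.H343.PrimeSumZ
import Fermat.Agent.Lib.Cheb.H581.AbsDirichlet
import Fermat.Agent.Lib.Cheb.H941.DirichletLimitBridge
import Fermat.Agent.Lib.Cheb.H581.CharSum

/-!
# CHEB / Tier 2 / piece CYC: norm-twisted `L`-series of a number field (helper581)

For a number field `K` and a Dirichlet character `χ` mod `m`:
* `eulerProd_eq_lseries`: the Euler product over the nonzero primes of `𝓞 K` of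
  `(1 - χ(N 𝔮) N 𝔮 ^ (-s))⁻¹` is `LSeries (n ↦ χ n * idealCount K n) s` (real `s > 1`);
* `norm_primeSum_sub_vSum_le`: the prime-ideal sum `∑ χ(N 𝔮) N 𝔮 ^ (-s)` differs from
  `∑' p ∉ B, χ p * primeCount K p * p ^ (-s)` by a bounded amount.
-/

set_option autoImplicit false
set_option linter.unusedSectionVars false
set_option linter.unusedVariables false
set_option linter.style.haveILetI false

open NumberField Ideal Filter Topology

namespace Fermat.Agent.Lib.Cheb.H581

open Fermat.Agent.Lib.EulerProd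

noncomputable section

variable (K : Type) [Field K] [NumberField K]

/-- Norms of the nonzero primes. -/
def nrm (𝔮 : PrimeIdeal K) : ℝ := ((absNorm 𝔮.1 : ℕ) : ℝ)

/-- The twist by `χ ∘ N`. -/
def tw {m : ℕ} (χ : DirichletCharacter ℂ m) (𝔮 : PrimeIdeal K) : ℂ :=
  χ ((absNorm 𝔮.1 : ℕ) : ZMod m)

lemma normData : AD.NormData (nrm K) where
  two_le 𝔮 := by
    have := 𝔮.two_le_absNorm
    unfold nrm
    exact_mod_cast this
  summable s hs := summable_x K hs

lemma norm_tw_le {m : ℕ} (χ : DirichletCharacter ℂ m) (𝔮 : PrimeIdeal K) : ‖tw K χ 𝔮‖ ≤ 1 :=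
  DirichletCharacter.norm_le_one χ _

lemma term_eq_idealTerm {m : ℕ} (χ : DirichletCharacter ℂ m) (s : ℝ) (𝔮 : PrimeIdeal K) :
    AD.term (nrm K) (tw K χ) s 𝔮 = H941.idealTerm K χ s 𝔮.1 := rfl

/-- **Euler product** of the norm-twisted `L`-series. -/
theorem eulerProd_eq_lseries {m : ℕ} [NeZero m] (χ : DirichletCharacter ℂ m) {s : ℝ}
    (hs : 1 < s) :
    AD.eulerProd (nrm K) (tw K χ) s =
      LSeries (fun n => χ (n : ZMod m) * (Spec.idealCount K n : ℂ)) (s : ℂ) := by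
  have hs0 : s ≠ 0 := by linarith
  have hprod := hasProd_one_sub_inv (M := Ideal (𝓞 K)) (F := ℂ)
    (f := H941.idealTerm K χ s)
    (H941.idealTerm_bot K χ hs0)
    (by
      unfold H941.idealTerm
      simp)
    (fun a b => by
      unfold H941.idealTerm
      simp only [map_mul, Nat.cast_mul]
      rw [Real.mul_rpow (Nat.cast_nonneg _) (Nat.cast_nonneg _)]
      push_cast
      ring)
    (by
      refine Summable.of_nonneg_of_le (fun _ => norm_nonneg _)
        (fun I => H941.norm_idealTerm_le K χ s I) (H761.summable_normPow K hs))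
  have h1 : AD.eulerProd (nrm K) (tw K χ) s = ∑' I : Ideal (𝓞 K), H941.idealTerm K χ s I :=
    hprod.tprod_eq
  rw [h1, ← H941.idealL_eq_tsum K χ hs0, ← H941.lseries_eq_idealL K χ hs]
  rfl

/-! ### Regrouping the degree-one primes by their norm -/

/-- Summability of `primeCount K p * p ^ (-s)` over the rational primes. -/
lemma summable_primeCount_mul {s : ℝ} (hs : 1 < s) :
    Summable (fun p : Nat.Primes => (Spec.primeCount K p : ℝ) * ((p : ℕ) : ℝ) ^ (-s)) := by
  have hsum : Summable (fun 𝔭 : degOne K => 𝔭.1.x s) := summable_x_subtype K hs _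
  have hsum' : Summable (fun x : (Σ p : Nat.Primes, H343.PrimeFibre K p) =>
      (((x.1 : ℕ) : ℝ)) ^ (-s)) := by
    rw [← (H343.degOneEquiv K).summable_iff]
    exact hsum
  have h := ((summable_sigma_of_nonneg (fun x => by positivity)).mp hsum').2
  refine h.congr fun p => ?_
  show ∑' (_ : H343.PrimeFibre K p), (((p : ℕ) : ℝ)) ^ (-s) = _
  rw [tsum_const, nsmul_eq_mul, H343.primeCount_eq]

/-- Regrouping a sum over the degree-one primes by the norm. -/
lemma tsum_degOne_eq (F : ℕ → ℂ)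
    (hsum : Summable (fun 𝔭 : degOne K => F (absNorm 𝔭.1.1))) :
    ∑' 𝔭 : degOne K, F (absNorm 𝔭.1.1) =
      ∑' p : Nat.Primes, (Spec.primeCount K p : ℂ) * F p := by
  have h1 : ∑' 𝔭 : degOne K, F (absNorm 𝔭.1.1) =
      ∑' x : (Σ p : Nat.Primes, H343.PrimeFibre K p), F (x.1 : ℕ) := by
    rw [← (H343.degOneEquiv K).tsum_eq]
    rfl
  have hsum' : Summable (fun x : (Σ p : Nat.Primes, H343.PrimeFibre K p) => F (x.1 : ℕ)) := by
    rw [← (H343.degOneEquiv K).summable_iff]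
    exact hsum
  rw [h1, Summable.tsum_sigma' (fun p => Summable.of_finite) hsum']
  refine tsum_congr fun p => ?_
  show ∑' (_ : H343.PrimeFibre K p), F (p : ℕ) = _
  rw [tsum_const, nsmul_eq_mul, H343.primeCount_eq]

/-! ### The weights -/

/-- The weights `primeCount K p * p ^ (-s)` on the primes outside `B`. -/
def wt (B : Finset ℕ) (s : ℝ) (p : Nat.Primes) : ℝ :=
  if (p : ℕ) ∈ B then 0 else (Spec.primeCount K p : ℝ) * ((p : ℕ) : ℝ) ^ (-s)

/-- The contribution of the bad primes. -/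
def badWt (B : Finset ℕ) (s : ℝ) (p : Nat.Primes) : ℝ :=
  if (p : ℕ) ∈ B then (Spec.primeCount K p : ℝ) * ((p : ℕ) : ℝ) ^ (-s) else 0

/-- A bound for the bad primes. -/
def badConst (B : Finset ℕ) : ℝ :=
  ∑' p : Nat.Primes, if (p : ℕ) ∈ B then (Spec.primeCount K p : ℝ) else 0

lemma wt_nonneg (B : Finset ℕ) (s : ℝ) (p : Nat.Primes) : 0 ≤ wt K B s p := by
  unfold wt
  split_ifs
  · exact le_rfl
  · positivity

lemma badWt_nonneg (B : Finset ℕ) (s : ℝ) (p : Nat.Primes) : 0 ≤ badWt K B s p := by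
  unfold badWt
  split_ifs
  · positivity
  · exact le_rfl

lemma wt_add_badWt (B : Finset ℕ) (s : ℝ) (p : Nat.Primes) :
    wt K B s p + badWt K B s p = (Spec.primeCount K p : ℝ) * ((p : ℕ) : ℝ) ^ (-s) := by
  unfold wt badWt
  split_ifs <;> simp

lemma summable_badConst (B : Finset ℕ) :
    Summable (fun p : Nat.Primes => if (p : ℕ) ∈ B then (Spec.primeCount K p : ℝ) else 0) := by
  refine summable_of_hasFiniteSupport ?_
  have hfin : {p : Nat.Primes | (p : ℕ) ∈ B}.Finite :=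
    (B.finite_toSet.preimage (Subtype.val_injective.injOn) : _)
  refine hfin.subset fun p hp => ?_
  by_contra h
  exact hp (if_neg h)

lemma badWt_le (B : Finset ℕ) {s : ℝ} (hs : 0 ≤ s) (p : Nat.Primes) :
    badWt K B s p ≤ if (p : ℕ) ∈ B then (Spec.primeCount K p : ℝ) else 0 := by
  unfold badWt
  split_ifs
  · have h1 : ((p : ℕ) : ℝ) ^ (-s) ≤ 1 := by
      have hp1 : (1 : ℝ) ≤ ((p : ℕ) : ℝ) := by exact_mod_cast p.2.one_lt.le
      exact Real.rpow_le_one_of_one_le_of_nonpos hp1 (by linarith)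
    calc (Spec.primeCount K p : ℝ) * ((p : ℕ) : ℝ) ^ (-s)
        ≤ (Spec.primeCount K p : ℝ) * 1 := by gcongr
      _ = _ := mul_one _
  · exact le_rfl

lemma summable_badWt (B : Finset ℕ) {s : ℝ} (hs : 0 ≤ s) : Summable (badWt K B s) :=
  Summable.of_nonneg_of_le (badWt_nonneg K B s) (badWt_le K B hs) (summable_badConst K B)

lemma tsum_badWt_le (B : Finset ℕ) {s : ℝ} (hs : 0 ≤ s) : ∑' p, badWt K B s p ≤ badConst K B :=
  (summable_badWt K B hs).tsum_le_tsum (badWt_le K B hs) (summable_badConst K B)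

lemma summable_wt (B : Finset ℕ) {s : ℝ} (hs : 1 < s) : Summable (wt K B s) := by
  refine Summable.of_nonneg_of_le (wt_nonneg K B s) (fun p => ?_) (summable_primeCount_mul K hs)
  rw [← wt_add_badWt K B s p]
  linarith [badWt_nonneg K B s p]

lemma tsum_wt_add (B : Finset ℕ) {s : ℝ} (hs : 1 < s) :
    ∑' p, wt K B s p + ∑' p, badWt K B s p = primeSumOne K s := by
  rw [H343.primeSumOne_eq_tsum_primes K hs,
    ← (summable_wt K B hs).tsum_add (summable_badWt K B (by linarith))]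
  exact tsum_congr fun p => wt_add_badWt K B s p

/-- **Z** for the weights. -/
theorem exists_wt_bound (B : Finset ℕ) :
    ∃ C : ℝ, ∀ s : ℝ, 1 < s → s ≤ 2 →
      |∑' p, wt K B s p - Real.log (1 / (s - 1))| ≤ C := by
  obtain ⟨C, hC⟩ := exists_primeSumOne_bound K
  refine ⟨C + badConst K B, fun s hs1 hs2 => ?_⟩
  have h1 := abs_le.mp (hC s hs1 hs2)
  have h2 := tsum_wt_add K B hs1
  have h3 := tsum_badWt_le K B (s := s) (by linarith)
  have h4 : 0 ≤ ∑' p, badWt K B s p := tsum_nonneg (badWt_nonneg K B s)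
  rw [abs_le]
  constructor <;> linarith [h1.1, h1.2]

/-! ### Comparison of the prime-ideal sum with the sum over rational primes -/

/-- The prime-ideal sum `∑ χ(N 𝔮) N 𝔮 ^ (-s)` and `∑' p ∉ B, χ p * primeCount K p * p ^ (-s)`
differ by a bounded amount. -/
theorem norm_primeSum_sub_vSum_le {m : ℕ} [NeZero m] (χ : DirichletCharacter ℂ m) (B : Finset ℕ)
    {s : ℝ}
    (hs : 1 < s) :
    ‖AD.primeSum (nrm K) (tw K χ) s - vSum (wt K B s) χ‖ ≤ degTwoBound K + badConst K B := by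
  have hsumT : Summable (AD.term (nrm K) (tw K χ) s) :=
    AD.summable_term (normData K) (norm_tw_le K χ) hs
  have hnorm : ∀ 𝔮 : PrimeIdeal K, ‖AD.term (nrm K) (tw K χ) s 𝔮‖ ≤ 𝔮.x s :=
    fun 𝔮 => AD.norm_term_le (normData K) (norm_tw_le K χ) s 𝔮
  -- split off the primes of degree ≥ 2
  have hsplit : AD.primeSum (nrm K) (tw K χ) s =
      ∑' 𝔮 : degOne K, AD.term (nrm K) (tw K χ) s 𝔮.1 +
        ∑' 𝔮 : ((degOne K)ᶜ : Set (PrimeIdeal K)), AD.term (nrm K) (tw K χ) s 𝔮.1 :=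
    (hsumT.tsum_subtype_add_tsum_subtype_compl (degOne K)).symm
  have hdeg2 : ‖∑' 𝔮 : ((degOne K)ᶜ : Set (PrimeIdeal K)),
      AD.term (nrm K) (tw K χ) s 𝔮.1‖ ≤ degTwoBound K := by
    refine le_trans (tsum_of_norm_bounded (summable_x_subtype K hs _).hasSum
      (fun 𝔮 => hnorm 𝔮.1)) (tsum_compl_degOne_le K hs)
  -- regroup the degree-one primes
  set F : ℕ → ℂ := fun n => χ (n : ZMod m) * ((((n : ℝ) ^ (-s) : ℝ)) : ℂ) with hF
  have hdeg1 : ∑' 𝔮 : degOne K, AD.term (nrm K) (tw K χ) s 𝔮.1 =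
      ∑' p : Nat.Primes, (Spec.primeCount K p : ℂ) * F p := by
    have hs1 : Summable (fun 𝔭 : degOne K => F (absNorm 𝔭.1.1)) :=
      hsumT.subtype (degOne K)
    exact tsum_degOne_eq K F hs1
  -- the bad primes
  have hbadterm : ∀ p : Nat.Primes, (Spec.primeCount K p : ℂ) * F p -
      χ (((p : ℕ) : ZMod m)) * ((wt K B s p : ℝ) : ℂ) =
      χ (((p : ℕ) : ZMod m)) * ((badWt K B s p : ℝ) : ℂ) := by
    intro p
    have h := wt_add_badWt K B s p
    have h' : ((wt K B s p : ℝ) : ℂ) + ((badWt K B s p : ℝ) : ℂ) =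
        (Spec.primeCount K p : ℂ) * ((((p : ℕ) : ℝ) ^ (-s) : ℝ) : ℂ) := by
      have := congrArg (fun x : ℝ => (x : ℂ)) h
      simpa using this
    rw [hF]
    simp only
    linear_combination (-(χ (((p : ℕ) : ZMod m)))) * h'
  have hsum1 : Summable (fun p : Nat.Primes => (Spec.primeCount K p : ℂ) * F p) := by
    refine Summable.of_norm_bounded (summable_primeCount_mul K hs) fun p => ?_
    rw [hF]
    simp only
    rw [norm_mul, norm_mul, Complex.norm_natCast, Complex.norm_real,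
      Real.norm_of_nonneg (by positivity)]
    calc (Spec.primeCount K p : ℝ) * (‖χ (((p : ℕ) : ZMod m))‖ * ((p : ℕ) : ℝ) ^ (-s))
        ≤ (Spec.primeCount K p : ℝ) * (1 * ((p : ℕ) : ℝ) ^ (-s)) := by
          gcongr
          exact DirichletCharacter.norm_le_one χ _
      _ = _ := by rw [one_mul]
  have hsum2 : Summable (fun p : Nat.Primes =>
      χ (((p : ℕ) : ZMod m)) * ((wt K B s p : ℝ) : ℂ)) :=
    Summable.of_norm_bounded (summable_wt K B hs) (norm_vterm_le _ (wt_nonneg K B s) χ)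
  have hbad : ∑' p : Nat.Primes, (Spec.primeCount K p : ℂ) * F p - vSum (wt K B s) χ =
      ∑' p : Nat.Primes, χ (((p : ℕ) : ZMod m)) * ((badWt K B s p : ℝ) : ℂ) := by
    rw [vSum, ← hsum1.tsum_sub hsum2]
    exact tsum_congr hbadterm
  have hbadnorm : ‖∑' p : Nat.Primes, χ (((p : ℕ) : ZMod m)) * ((badWt K B s p : ℝ) : ℂ)‖ ≤
      badConst K B := by
    refine le_trans (tsum_of_norm_bounded (summable_badWt K B (by linarith)).hasSum
      (norm_vterm_le _ (badWt_nonneg K B s) χ)) (tsum_badWt_le K B (by linarith))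
  have hfinal : AD.primeSum (nrm K) (tw K χ) s - vSum (wt K B s) χ =
      ∑' 𝔮 : ((degOne K)ᶜ : Set (PrimeIdeal K)), AD.term (nrm K) (tw K χ) s 𝔮.1 +
        ∑' p : Nat.Primes, χ (((p : ℕ) : ZMod m)) * ((badWt K B s p : ℝ) : ℂ) := by
    rw [hsplit, hdeg1, ← hbad]
    ring
  rw [hfinal]
  exact (norm_add_le _ _).trans (add_le_add hdeg2 hbadnorm)

/-! ### From a limit of the `L`-series to bounds for the twisted prime sums -/

/-- If `L_K(s, χ ∘ N)` has a limit at `1⁺`, then the real part of the twisted prime sum is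
bounded above near `1`; and if it is also bounded below near `1`, then the twisted prime sum is
bounded on `(1, 2]`. -/
theorem bounds_of_tendsto {m : ℕ} [NeZero m] (χ : DirichletCharacter ℂ m) (B : Finset ℕ) {c : ℂ}
    (hlim : Tendsto
      (fun s : ℝ => LSeries (fun n => χ (n : ZMod m) * (Spec.idealCount K n : ℂ)) (s : ℂ))
      (𝓝[>] 1) (𝓝 c)) :
    (∃ U : ℝ, ∀ᶠ s in 𝓝[>] (1 : ℝ), (vSum (wt K B s) χ).re ≤ U) ∧
      ((∃ C : ℝ, ∀ᶠ s in 𝓝[>] (1 : ℝ), -C ≤ (vSum (wt K B s) χ).re) →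
        ∃ Bd : ℝ, ∀ s, 1 < s → s ≤ 2 → ‖vSum (wt K B s) χ‖ ≤ Bd) := by
  have hN := normData K
  have ha := norm_tw_le K χ
  have hE : Tendsto (AD.eulerProd (nrm K) (tw K χ)) (𝓝[>] 1) (𝓝 c) := by
    refine hlim.congr' ?_
    filter_upwards [self_mem_nhdsWithin] with s hs
    exact (eulerProd_eq_lseries K χ hs).symm
  set D : ℝ := degTwoBound K + badConst K B with hD
  set Sq : ℝ := AD.sqConst (nrm K) with hSq
  have hnormE : ∀ s : ℝ, 1 < s → ‖AD.eulerProd (nrm K) (tw K χ) s‖ =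
      Real.exp (AD.logEuler (nrm K) (tw K χ) s).re := by
    intro s hs
    rw [← AD.exp_logEuler hN ha hs, Complex.norm_exp]
  have hre1 : ∀ s : ℝ, 1 < s →
      |(AD.logEuler (nrm K) (tw K χ) s).re - (AD.primeSum (nrm K) (tw K χ) s).re| ≤ Sq := by
    intro s hs
    rw [← Complex.sub_re]
    exact (Complex.abs_re_le_norm _).trans (AD.norm_logEuler_sub_primeSum_le hN ha hs)
  have hre2 : ∀ s : ℝ, 1 < s →
      |(AD.primeSum (nrm K) (tw K χ) s).re - (vSum (wt K B s) χ).re| ≤ D := by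
    intro s hs
    rw [← Complex.sub_re]
    exact (Complex.abs_re_le_norm _).trans (norm_primeSum_sub_vSum_le K χ B hs)
  constructor
  · refine ⟨Real.log (‖c‖ + 1) + Sq + D, ?_⟩
    have hev : ∀ᶠ s in 𝓝[>] (1 : ℝ), ‖AD.eulerProd (nrm K) (tw K χ) s‖ < ‖c‖ + 1 :=
      hE.norm.eventually (Iio_mem_nhds (lt_add_one ‖c‖))
    filter_upwards [hev, self_mem_nhdsWithin] with s hs hs1
    have hs1' : (1 : ℝ) < s := hs1
    rw [hnormE s hs1'] at hs
    have hpos : (0 : ℝ) < ‖c‖ + 1 := by positivity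
    have h1 : (AD.logEuler (nrm K) (tw K χ) s).re < Real.log (‖c‖ + 1) :=
      (Real.lt_log_iff_exp_lt hpos).mpr hs
    have h2 := abs_le.mp (hre1 s hs1')
    have h3 := abs_le.mp (hre2 s hs1')
    linarith [h2.1, h3.1]
  · rintro ⟨C, hC⟩
    have hev : ∀ᶠ s in 𝓝[>] (1 : ℝ),
        Real.exp (-C - D - Sq) ≤ ‖AD.eulerProd (nrm K) (tw K χ) s‖ := by
      filter_upwards [hC, self_mem_nhdsWithin] with s hs hs1
      have hs1' : (1 : ℝ) < s := hs1
      rw [hnormE s hs1', Real.exp_le_exp]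
      have h2 := abs_le.mp (hre1 s hs1')
      have h3 := abs_le.mp (hre2 s hs1')
      linarith [h2.1, h3.1]
    have hc : Real.exp (-C - D - Sq) ≤ ‖c‖ := ge_of_tendsto hE.norm hev
    have hc0 : c ≠ 0 := by
      intro h0
      rw [h0, norm_zero] at hc
      exact absurd hc (not_le.mpr (Real.exp_pos _))
    obtain ⟨B₀, hB₀⟩ := AD.primeSum_bounded_of_tendsto hN ha hc0 hE
    refine ⟨B₀ + D, fun s hs1 hs2 => ?_⟩
    have h1 := hB₀ s hs1 hs2
    have h2 := norm_primeSum_sub_vSum_le K χ B hs1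
    have h3 : ‖vSum (wt K B s) χ‖ ≤ ‖AD.primeSum (nrm K) (tw K χ) s‖ +
        ‖AD.primeSum (nrm K) (tw K χ) s - vSum (wt K B s) χ‖ := by
      have := norm_sub_le (AD.primeSum (nrm K) (tw K χ) s)
        (AD.primeSum (nrm K) (tw K χ) s - vSum (wt K B s) χ)
      simpa using this
    linarith

end

end Fermat.Agent.Lib.Cheb.H581
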