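import Fermat.Agent.Lib.Cheb.H581.Split
import Fermat.Agent.Lib.Cheb.H581.Twist

/-!
# CHEB / Tier 2 / piece CYC: `Spec.CycStatement` from `Spec.DirichletLimitStatement` (helper581)

`cyc_of : DirichletLimitStatement → CountStatement → FrobStatement → FrobFiniteStatement →
CycStatement`.
-/

set_option autoImplicit false
set_option linter.unusedSectionVars false
set_option linter.unusedVariables false
set_option linter.style.haveILetI false

open NumberField Ideal Filter Topology

namespace Fermat.Agent.Lib.Cheb.H581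

open Fermat.Agent.Lib.Cheb.Spec

lemma wt_ne_zero {K : Type} [Field K] [NumberField K] {B : Finset ℕ} {s : ℝ} {p : Nat.Primes}
    (h : wt K B s p ≠ 0) : (p : ℕ) ∉ B ∧ primeCount K p ≠ 0 := by
  unfold wt at h
  split_ifs at h with hB
  · exact absurd rfl h
  · refine ⟨hB, fun h0 => h ?_⟩
    rw [h0, Nat.cast_zero, zero_mul]

/-- **CYC** from the analytic core and the Tier-1 statements. -/
theorem cyc_of (hAN : DirichletLimitStatement) (hA : CountStatement) (hD : FrobStatement)
    (hM : FrobFiniteStatement) : CycStatement := by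
  classical
  intro L _ _ _ m ζ hm hζ g hg S
  haveI : NeZero m := ⟨hm.ne'⟩
  obtain ⟨B, hSB, h1, h2, h3, h4, h5⟩ := exists_cyc_data hζ g hg hA hD hM S
  -- hypotheses of the character-sum argument
  have hX0 : ∀ χ : DirichletCharacter ℂ m,
      χ ((hζ.autToPow ℚ g : (ZMod m)ˣ) : ZMod m) = 1 →
      ∀ (s : ℝ) (p : Nat.Primes),
        wt (IntermediateField.fixedField (Subgroup.zpowers g)) B s p ≠ 0 →
          χ (((p : ℕ) : ZMod m)) = 1 := by
    intro χ hχ s p hne
    obtain ⟨hpB, hc⟩ := wt_ne_zero hne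
    obtain ⟨j, hj⟩ := h3 p p.2 hpB hc
    rw [hj, map_pow, hχ, one_pow]
  have hLB : ∃ C : ℝ, ∀ s, 1 < s → s ≤ 2 → Real.log (1 / (s - 1)) - C ≤
      (Nat.card (Subgroup.zpowers g) : ℕ) * ∑' p : Nat.Primes,
        (if ((p : ℕ) : ZMod m) = 1 then
          wt (IntermediateField.fixedField (Subgroup.zpowers g)) B s p else 0) := by
    obtain ⟨C', hC'⟩ :=
      exists_wt_bound (IntermediateField.fixedField (⊥ : Subgroup (L ≃ₐ[ℚ] L))) B
    refine ⟨C', fun s hs1 hs2 => ?_⟩
    have hb := (abs_le.mp (hC' s hs1 hs2)).1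
    have hterm : ∀ p : Nat.Primes,
        wt (IntermediateField.fixedField (⊥ : Subgroup (L ≃ₐ[ℚ] L))) B s p ≤
          (Nat.card (Subgroup.zpowers g) : ℕ) * (if ((p : ℕ) : ZMod m) = 1 then
            wt (IntermediateField.fixedField (Subgroup.zpowers g)) B s p else 0) := by
      intro p
      have hR : (0 : ℝ) ≤ (Nat.card (Subgroup.zpowers g) : ℕ) *
          (if ((p : ℕ) : ZMod m) = 1 then
            wt (IntermediateField.fixedField (Subgroup.zpowers g)) B s p else 0) := by
        refine mul_nonneg (Nat.cast_nonneg _) ?_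
        split_ifs
        · exact wt_nonneg _ B s p
        · exact le_rfl
      by_cases hpB : (p : ℕ) ∈ B
      · have : wt (IntermediateField.fixedField (⊥ : Subgroup (L ≃ₐ[ℚ] L))) B s p = 0 := by
          unfold wt
          rw [if_pos hpB]
        rw [this]
        exact hR
      · by_cases hc : primeCount (IntermediateField.fixedField (⊥ : Subgroup (L ≃ₐ[ℚ] L))) p = 0
        · have : wt (IntermediateField.fixedField (⊥ : Subgroup (L ≃ₐ[ℚ] L))) B s p = 0 := by
            unfold wt
            rw [if_neg hpB, hc, Nat.cast_zero, zero_mul]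
          rw [this]
          exact hR
        · have h1' := h1 p p.2 hpB
          have h2' := h2 p p.2 hpB hc
          rw [if_pos h2']
          unfold wt
          rw [if_neg hpB, if_neg hpB, ← mul_assoc]
          refine mul_le_mul_of_nonneg_right ?_ (by positivity)
          exact_mod_cast h1'
    have hsumR : Summable (fun p : Nat.Primes =>
        ((Nat.card (Subgroup.zpowers g) : ℕ) : ℝ) * (if ((p : ℕ) : ZMod m) = 1 then
          wt (IntermediateField.fixedField (Subgroup.zpowers g)) B s p else 0)) := by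
      refine Summable.mul_left _ ?_
      refine Summable.of_nonneg_of_le (fun p => ?_) (fun p => ?_)
        (summable_wt (IntermediateField.fixedField (Subgroup.zpowers g)) B hs1)
      · split_ifs
        · exact wt_nonneg _ B s p
        · exact le_rfl
      · split_ifs
        · exact le_rfl
        · exact wt_nonneg _ B s p
    have hle := (summable_wt (IntermediateField.fixedField (⊥ : Subgroup (L ≃ₐ[ℚ] L))) B
      hs1).tsum_le_tsum hterm hsumR
    rw [tsum_mul_left] at hle
    linarith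
  have hQ : ∀ χ : DirichletCharacter ℂ m,
      χ ((hζ.autToPow ℚ g : (ZMod m)ˣ) : ZMod m) ≠ 1 →
      (∃ U : ℝ, ∀ᶠ s in 𝓝[>] (1 : ℝ),
        (vSum (wt (IntermediateField.fixedField (Subgroup.zpowers g)) B s) χ).re ≤ U) ∧
      ((∃ C : ℝ, ∀ᶠ s in 𝓝[>] (1 : ℝ),
        -C ≤ (vSum (wt (IntermediateField.fixedField (Subgroup.zpowers g)) B s) χ).re) →
        ∃ Bd : ℝ, ∀ s, 1 < s → s ≤ 2 →
          ‖vSum (wt (IntermediateField.fixedField (Subgroup.zpowers g)) B s) χ‖ ≤ Bd) := by
    intro χ hχ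
    obtain ⟨p₀, hp₀, hp₀B, hc₀, i, hi⟩ := h4
    -- an ideal of norm `p₀`
    have hne : Nonempty {𝔮 : Ideal (𝓞 (IntermediateField.fixedField (Subgroup.zpowers g))) //
        𝔮.IsPrime ∧ Ideal.absNorm 𝔮 = p₀} := (Nat.card_ne_zero.mp hc₀).1
    obtain ⟨⟨𝔮, -, h𝔮⟩⟩ := hne
    have hχa : χ ((hζ.autToPow ℚ g : (ZMod m)ˣ) : ZMod m) = χ ((p₀ : ℕ) : ZMod m) ^ i := by
      rw [hi, map_pow]
    have hχ1 : χ ((p₀ : ℕ) : ZMod m) ≠ 1 := by
      intro h
      rw [h, one_pow] at hχa
      exact hχ hχa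
    have hχ0 : χ ((p₀ : ℕ) : ZMod m) ≠ 0 := by
      intro h
      have hunit : IsUnit (χ ((hζ.autToPow ℚ g : (ZMod m)ˣ) : ZMod m)) :=
        (hζ.autToPow ℚ g).isUnit.map χ
      rw [hχa, h] at hunit
      rcases Nat.eq_zero_or_pos i with hi0 | hi0
      · rw [hi0, pow_zero] at hχa
        exact hχ hχa
      · rw [zero_pow hi0.ne'] at hunit
        exact not_isUnit_zero hunit
    obtain ⟨c, hc⟩ := hAN (IntermediateField.fixedField (Subgroup.zpowers g)) m χ
      ⟨𝔮, by rw [h𝔮]; exact hχ0, by rw [h𝔮]; exact hχ1⟩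
    exact bounds_of_tendsto (IntermediateField.fixedField (Subgroup.zpowers g)) χ B hc
  obtain ⟨p, s, hne, hpa⟩ := exists_prime_of_charSum (hζ.autToPow ℚ g)
    (Nat.card (Subgroup.zpowers g)) (orderOf_autToPow hζ g hg)
    (wt (IntermediateField.fixedField (Subgroup.zpowers g)) B)
    (wt_nonneg _ B) (fun s hs => summable_wt _ B hs) hX0
    (exists_wt_bound _ B) hLB hQ
  obtain ⟨hpB, hc⟩ := wt_ne_zero hne
  obtain ⟨P, hP, hpP, hI, hF⟩ := h5 p p.2 hpB hc hpa
  exact ⟨p, P, p.2, fun h => hpB (hSB h), hP, hpP, hI, hF⟩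

end Fermat.Agent.Lib.Cheb.H581
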