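import Fermat.Agent.Lib.Cheb.H581.Cyc
import Fermat.Agent.Lib.Cheb.FrobFinite

/-!
# CHEB / Tier 2 / piece CYC (helper581): `DirichletLimitStatement → CycStatement`

The Tier-1 inputs (`A` = helper764, `D` = helper943, `M` = `Lib.Cheb.frobFinite`) are taken from
main; the only remaining hypothesis is the analytic core `Spec.DirichletLimitStatement`.
-/

set_option autoImplicit false

namespace Fermat.Agent.Lib.Cheb.H581

/-- **CYC**: the cyclotomic case of Chebotarev, from the analytic core (AN). -/
theorem cyc (hAN : Spec.DirichletLimitStatement) : Spec.CycStatement :=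
  cyc_of hAN H764.count H943.frobStatement Fermat.Agent.Lib.Cheb.frobFinite

/-- Finite-level qualitative Chebotarev from the analytic core, given a proof of `CROSS`. -/
theorem chebFinite_of (hAN : Spec.DirichletLimitStatement) (hX : Spec.CrossStatement) :
    Spec.ChebFiniteStatement :=
  hX H943.frobStatement (cyc hAN)

end Fermat.Agent.Lib.Cheb.H581
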