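import Fermat.Agent.Lib.Cheb.Spec
import Fermat.Agent.Lib.Cheb.H764.Count

/-!
# CHEB / Tier 2 / piece CYC: the algebra (helper581)

`L/ℚ` Galois, `ζ ∈ L` a primitive `m`-th root of unity, `g ∈ Gal(L/ℚ)` with `⟨g⟩` acting
faithfully on `ζ`.  From the Tier-1 statements `Spec.CountStatement`, `Spec.FrobStatement`,
`Spec.FrobFiniteStatement` we extract everything the analytic argument needs about the
degree-one primes of `L^⟨g⟩` and of `L^⊥`.
-/

set_option autoImplicit false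
set_option linter.unusedSectionVars false
set_option linter.unusedVariables false
set_option linter.style.haveILetI false

open NumberField
open scoped Pointwise

namespace Fermat.Agent.Lib.Cheb.H581

open Fermat.Agent.Lib.Cheb.Spec

section decompWeight

variable (L : Type) [Field L] [NumberField L] [IsGalois ℚ L]

lemma primesLe_finite (H : Subgroup (L ≃ₐ[ℚ] L)) {p : ℕ} (hp : p.Prime) :
    (primesLe L H p).Finite := by
  haveI := H764.span_isPrime hp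
  refine Set.Finite.subset
    (Algebra.QuasiFinite.finite_primesOver (S := 𝓞 L) (Ideal.span {(p : ℤ)})) ?_
  rintro P ⟨hP1, hP2, -⟩
  haveI := hP1
  exact ⟨hP1, H764.liesOver_of_mem hp P hP2⟩

lemma decompWeight_eq_sum (H : Subgroup (L ≃ₐ[ℚ] L)) {p : ℕ} (hp : p.Prime) :
    decompWeight L H p =
      ∑ P ∈ (primesLe_finite L H hp).toFinset, Nat.card (decomp L P) := by
  rw [decompWeight, finsum_set_coe_eq_finsum_mem (f := fun P => Nat.card (decomp L P)),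
    finsum_mem_eq_finite_toFinset_sum _ (primesLe_finite L H hp)]

lemma decompWeight_mono {H₁ H₂ : Subgroup (L ≃ₐ[ℚ] L)} (h : H₁ ≤ H₂) {p : ℕ} (hp : p.Prime) :
    decompWeight L H₁ p ≤ decompWeight L H₂ p := by
  rw [decompWeight_eq_sum L H₁ hp, decompWeight_eq_sum L H₂ hp]
  refine Finset.sum_le_sum_of_subset ?_
  intro P hP
  rw [Set.Finite.mem_toFinset] at hP ⊢
  exact ⟨hP.1, hP.2.1, hP.2.2.trans h⟩

lemma card_decomp_pos (P : Ideal (𝓞 L)) : 0 < Nat.card (decomp L P) := Nat.card_pos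

lemma exists_mem_primesLe (H : Subgroup (L ≃ₐ[ℚ] L)) {p : ℕ} (hp : p.Prime)
    (h : decompWeight L H p ≠ 0) : ∃ P, P ∈ primesLe L H p := by
  by_contra hcon
  push Not at hcon
  apply h
  rw [decompWeight_eq_sum L H hp]
  refine Finset.sum_eq_zero fun P hP => ?_
  rw [Set.Finite.mem_toFinset] at hP
  exact absurd hP (hcon P)

lemma decompWeight_pos_of_mem (H : Subgroup (L ≃ₐ[ℚ] L)) {p : ℕ} (hp : p.Prime)
    {P : Ideal (𝓞 L)} (hP : P ∈ primesLe L H p) : 0 < decompWeight L H p := by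
  rw [decompWeight_eq_sum L H hp]
  exact lt_of_lt_of_le (card_decomp_pos L P)
    (Finset.single_le_sum (f := fun P => Nat.card (decomp L P)) (fun _ _ => Nat.zero_le _)
      ((Set.Finite.mem_toFinset _).mpr hP))

end decompWeight

section frob

variable (L : Type) [Field L] [NumberField L] [IsGalois ℚ L]

lemma card_quot_under_eq {p : ℕ} (hp : p.Prime) (P : Ideal (𝓞 L)) (hP : P.IsPrime)
    (hpP : (p : 𝓞 L) ∈ P) : Nat.card (ℤ ⧸ P.under ℤ) = p := by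
  have : Fact p.Prime := ⟨hp⟩
  have hle : Ideal.span {(p : ℤ)} ≤ P.under ℤ := by
    rw [Ideal.span_le, Set.singleton_subset_iff]
    show algebraMap ℤ (𝓞 L) (p : ℤ) ∈ P
    simpa using hpP
  have hne : P.under ℤ ≠ ⊤ := (Ideal.IsPrime.under ℤ P).ne_top
  have heq : Ideal.span {(p : ℤ)} = P.under ℤ :=
    (Int.ideal_span_isMaximal_of_prime p).eq_of_le hne hle
  rw [← heq, Int.card_ideal_quot]

lemma natCast_notMem {p m : ℕ} (hp : p.Prime) (hpm : ¬ p ∣ m) (P : Ideal (𝓞 L))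
    (hP : P.IsPrime) (hpP : (p : 𝓞 L) ∈ P) : (m : 𝓞 L) ∉ P := by
  intro hm
  have hcop : IsCoprime (p : ℤ) (m : ℤ) :=
    Nat.isCoprime_iff_coprime.mpr ((Nat.Prime.coprime_iff_not_dvd hp).mpr hpm)
  obtain ⟨x, y, hxy⟩ := hcop
  have h1 : ((x : 𝓞 L)) * (p : 𝓞 L) + (y : 𝓞 L) * (m : 𝓞 L) = 1 := by
    have := congrArg (fun z : ℤ => (z : 𝓞 L)) hxy
    simpa using this
  have h2 : (1 : 𝓞 L) ∈ P := by
    rw [← h1]
    exact P.add_mem (P.mul_mem_left _ hpP) (P.mul_mem_left _ hm)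
  exact hP.ne_top ((Ideal.eq_top_iff_one P).mpr h2)

/-- A Frobenius at `P ∣ p`, `p ∤ m`, raises `m`-th roots of unity to the `p`-th power. -/
lemma frob_apply_root {p m : ℕ} (hp : p.Prime) (hpm : ¬ p ∣ m) (hm : 0 < m)
    (P : Ideal (𝓞 L)) (hP : P.IsPrime) (hpP : (p : 𝓞 L) ∈ P) (τ : L ≃ₐ[ℚ] L)
    (hτ : IsArithFrobAt ℤ τ P) {ζ : L} (hζ : ζ ^ m = 1) : τ ζ = ζ ^ p := by
  have hint : IsIntegral ℤ ζ := by
    refine ⟨Polynomial.X ^ m - 1, Polynomial.monic_X_pow_sub_C 1 hm.ne', ?_⟩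
    simp [hζ]
  let ζ' : 𝓞 L := ⟨ζ, hint⟩
  have hval : ∀ k : ℕ, ((ζ' ^ k : 𝓞 L) : L) = ζ ^ k := by
    intro k
    rw [RingOfIntegers.coe_eq_algebraMap, map_pow]
    rfl
  have hζ' : ζ' ^ m = 1 := by
    apply RingOfIntegers.ext
    rw [hval, hζ]
    rfl
  have h := AlgHom.IsArithFrobAt.apply_of_pow_eq_one hτ hζ' (natCast_notMem L hp hpm P hP hpP)
  rw [card_quot_under_eq L hp P hP hpP] at h
  have h2 : ((MulSemiringAction.toAlgHom ℤ (𝓞 L) τ ζ' : 𝓞 L) : L) = ((ζ' ^ p : 𝓞 L) : L) :=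
    congrArg (fun x : 𝓞 L => (x : L)) h
  have h3 : ((MulSemiringAction.toAlgHom ℤ (𝓞 L) τ ζ' : 𝓞 L) : L) = τ ζ := rfl
  rw [h3, hval] at h2
  exact h2

/-- Uniqueness of the Frobenius when the inertia group is trivial. -/
lemma frob_unique {P : Ideal (𝓞 L)} (hI : InertiaTrivial L P) {τ τ' : L ≃ₐ[ℚ] L}
    (hτ : IsArithFrobAt ℤ τ P) (hτ' : IsArithFrobAt ℤ τ' P) : τ = τ' := by
  have h2 := IsArithFrobAt.mul_inv_mem_inertia hτ hτ'
  have h3 : τ * τ'⁻¹ = 1 := hI _ h2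
  exact mul_inv_eq_one.mp h3

end frob

section cyc

variable {L : Type} [Field L] [NumberField L] [IsGalois ℚ L]
variable {m : ℕ} [NeZero m] {ζ : L} (hζ : IsPrimitiveRoot ζ m)

include hζ in
lemma natCast_eq_of_pow_eq {a b : ℕ} (h : ζ ^ a = ζ ^ b) : (a : ZMod m) = (b : ZMod m) := by
  have hζ0 : ζ ≠ 0 := hζ.ne_zero (NeZero.ne m)
  have h1 : ζ ^ ((a : ℤ) - (b : ℤ)) = 1 := by
    rw [zpow_sub₀ hζ0, zpow_natCast, zpow_natCast, h, div_self (pow_ne_zero _ hζ0)]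
  have hd := (hζ.zpow_eq_one_iff_dvd _).mp h1
  have h2 := (ZMod.intCast_eq_intCast_iff_dvd_sub (b : ℤ) (a : ℤ) m).mpr hd
  have h3 : (b : ZMod m) = (a : ZMod m) := by exact_mod_cast h2
  exact h3.symm

/-- The class mod `m` of an automorphism acting on `ζ` by the `p`-th power. -/
lemma autToPow_eq_natCast (τ : L ≃ₐ[ℚ] L) {p : ℕ} (h : τ ζ = ζ ^ p) :
    ((hζ.autToPow ℚ τ : (ZMod m)ˣ) : ZMod m) = (p : ZMod m) := by
  have h1 := hζ.autToPow_spec ℚ τ
  rw [h] at h1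
  rw [← ZMod.natCast_zmod_val ((hζ.autToPow ℚ τ : (ZMod m)ˣ) : ZMod m)]
  exact natCast_eq_of_pow_eq hζ h1

lemma apply_eq_of_autToPow_eq {τ τ' : L ≃ₐ[ℚ] L}
    (h : hζ.autToPow ℚ τ = hζ.autToPow ℚ τ') : τ ζ = τ' ζ := by
  rw [← hζ.autToPow_spec ℚ τ, ← hζ.autToPow_spec ℚ τ', h]

variable (g : L ≃ₐ[ℚ] L) (hg : ∀ k : ℕ, (g ^ k) ζ = ζ → g ^ k = 1)

include hg in
lemma pow_eq_one_iff_autToPow (k : ℕ) : (hζ.autToPow ℚ g) ^ k = 1 ↔ g ^ k = 1 := by
  constructor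
  · intro h
    apply hg
    have h1 : hζ.autToPow ℚ (g ^ k) = hζ.autToPow ℚ 1 := by rw [map_pow, h, map_one]
    have := apply_eq_of_autToPow_eq hζ h1
    simpa using this
  · intro h
    rw [← map_pow, h, map_one]

include hg in
lemma orderOf_autToPow : orderOf (hζ.autToPow ℚ g) = Nat.card (Subgroup.zpowers g) := by
  rw [Nat.card_zpowers]
  exact orderOf_eq_orderOf_iff.mpr (pow_eq_one_iff_autToPow hζ g hg)

include hg in
/-- Elements of `⟨g⟩` are determined by their action on `ζ`. -/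
lemma eq_of_mem_zpowers_of_apply_eq {τ : L ≃ₐ[ℚ] L} (hτ : τ ∈ Subgroup.zpowers g)
    (h : τ ζ = g ζ) : τ = g := by
  obtain ⟨j, rfl⟩ := (Submonoid.mem_powers_iff _ _).mp (mem_powers_iff_mem_zpowers.mpr hτ)
  set n := orderOf g with hn'
  have hn : 0 < n := orderOf_pos g
  have h3 : g ^ (n - 1) * g = 1 := by
    rw [← pow_succ, Nat.sub_add_cancel hn, pow_orderOf_eq_one]
  have h1 : (g ^ (n - 1 + j)) ζ = ζ := by
    rw [pow_add, AlgEquiv.mul_apply, h, ← AlgEquiv.mul_apply, h3]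
    rfl
  have h2 := hg _ h1
  rw [pow_add] at h2
  exact mul_left_cancel (h2.trans h3.symm)

include hg in
/-- **The algebraic input of CYC.** -/
theorem exists_cyc_data (hA : CountStatement) (hD : FrobStatement) (hM : FrobFiniteStatement)
    (S : Finset ℕ) :
    ∃ B : Finset ℕ, S ⊆ B ∧
      (∀ p : ℕ, p.Prime → p ∉ B →
        primeCount (IntermediateField.fixedField (⊥ : Subgroup (L ≃ₐ[ℚ] L))) p ≤
          Nat.card (Subgroup.zpowers g) *
            primeCount (IntermediateField.fixedField (Subgroup.zpowers g)) p) ∧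
      (∀ p : ℕ, p.Prime → p ∉ B →
        primeCount (IntermediateField.fixedField (⊥ : Subgroup (L ≃ₐ[ℚ] L))) p ≠ 0 →
          ((p : ℕ) : ZMod m) = 1) ∧
      (∀ p : ℕ, p.Prime → p ∉ B →
        primeCount (IntermediateField.fixedField (Subgroup.zpowers g)) p ≠ 0 →
          ∃ j : ℕ, ((p : ℕ) : ZMod m) = ((hζ.autToPow ℚ g : (ZMod m)ˣ) : ZMod m) ^ j) ∧
      (∃ p : ℕ, p.Prime ∧ p ∉ B ∧
        primeCount (IntermediateField.fixedField (Subgroup.zpowers g)) p ≠ 0 ∧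
          ∃ i : ℕ, ((hζ.autToPow ℚ g : (ZMod m)ˣ) : ZMod m) = ((p : ℕ) : ZMod m) ^ i) ∧
      (∀ p : ℕ, p.Prime → p ∉ B →
        primeCount (IntermediateField.fixedField (Subgroup.zpowers g)) p ≠ 0 →
        ((p : ℕ) : ZMod m) = ((hζ.autToPow ℚ g : (ZMod m)ˣ) : ZMod m) →
          ∃ P : Ideal (𝓞 L), P.IsPrime ∧ (p : 𝓞 L) ∈ P ∧ InertiaTrivial L P ∧
            IsArithFrobAt ℤ g P) := by
  classical
  obtain ⟨BD, hBD⟩ := hD L
  obtain ⟨BC, hBC⟩ := hA L (Subgroup.zpowers g)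
  obtain ⟨B0, hB0⟩ := hA L ⊥
  have hm0 : m ≠ 0 := NeZero.ne m
  have hmpos : 0 < m := Nat.pos_of_ne_zero hm0
  set B : Finset ℕ := S ∪ BD ∪ BC ∪ B0 ∪ m.primeFactors with hB
  have hS : ∀ p, p ∉ B → p ∉ S := fun p hp h => hp (by simp [hB, h])
  have hD' : ∀ p, p ∉ B → p ∉ BD := fun p hp h => hp (by simp [hB, h])
  have hC' : ∀ p, p ∉ B → p ∉ BC := fun p hp h => hp (by simp [hB, h])
  have h0' : ∀ p, p ∉ B → p ∉ B0 := fun p hp h => hp (by simp [hB, h])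
  have hm' : ∀ p, p.Prime → p ∉ B → ¬ p ∣ m := fun p hpp hp h =>
    hp (by
      have : p ∈ m.primeFactors := Nat.mem_primeFactors.mpr ⟨hpp, h, hm0⟩
      simp [hB, this])
  -- Frobenius data at the primes in `primesLe`
  have key : ∀ p : ℕ, p.Prime → p ∉ B → ∀ (H : Subgroup (L ≃ₐ[ℚ] L)) (P : Ideal (𝓞 L)),
      P ∈ primesLe L H p → ∃ τ : L ≃ₐ[ℚ] L, τ ∈ H ∧ IsArithFrobAt ℤ τ P ∧ τ ζ = ζ ^ p ∧
        InertiaTrivial L P ∧ P.IsPrime ∧ (p : 𝓞 L) ∈ P := by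
    intro p hp hpB H P hP
    obtain ⟨hP1, hP2, hP3⟩ := hP
    obtain ⟨hI, τ, hτ, hdec⟩ := hBD p hp (hD' p hpB) P hP1 hP2
    have hmem : τ ∈ decomp L P := by
      rw [hdec]
      exact Subgroup.mem_zpowers τ
    exact ⟨τ, hP3 hmem, hτ,
      frob_apply_root L hp (hm' p hp hpB) hmpos P hP1 hP2 τ hτ hζ.pow_eq_one, hI, hP1, hP2⟩
  have hcardC : 0 < Nat.card (Subgroup.zpowers g) := Nat.card_pos
  refine ⟨B, fun p hp => by simp [hB, hp], ?_, ?_, ?_, ?_, ?_⟩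
  · intro p hp hpB
    have e1 := hB0 p hp (h0' p hpB)
    have e2 := hBC p hp (hC' p hpB)
    rw [Subgroup.card_bot, mul_one] at e1
    rw [e1, mul_comm, e2]
    exact decompWeight_mono L bot_le hp
  · intro p hp hpB hne
    have e1 := hB0 p hp (h0' p hpB)
    rw [Subgroup.card_bot, mul_one] at e1
    obtain ⟨P, hP⟩ := exists_mem_primesLe L ⊥ hp (e1 ▸ hne)
    obtain ⟨τ, hτ, -, hτζ, -⟩ := key p hp hpB ⊥ P hP
    rw [Subgroup.mem_bot] at hτ
    rw [hτ] at hτζ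
    have h1 : ζ ^ p = ζ ^ 1 := by
      rw [pow_one]
      exact hτζ.symm
    have := natCast_eq_of_pow_eq hζ h1
    simpa using this
  · intro p hp hpB hne
    have e2 := hBC p hp (hC' p hpB)
    have hdw : decompWeight L (Subgroup.zpowers g) p ≠ 0 := by
      rw [← e2]
      exact Nat.mul_ne_zero hne hcardC.ne'
    obtain ⟨P, hP⟩ := exists_mem_primesLe L _ hp hdw
    obtain ⟨τ, hτ, -, hτζ, -⟩ := key p hp hpB _ P hP
    obtain ⟨j, rfl⟩ := (Submonoid.mem_powers_iff _ _).mp (mem_powers_iff_mem_zpowers.mpr hτ)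
    refine ⟨j, ?_⟩
    rw [← autToPow_eq_natCast hζ (g ^ j) hτζ, map_pow, Units.val_pow_eq_pow_val]
  · obtain ⟨p, P, τ, hp, hpB, hP, hpP, hI, hτ, hz⟩ := hM L g B
    obtain ⟨-, τ', hτ', hdec⟩ := hBD p hp (hD' p hpB) P hP hpP
    have hττ' : τ = τ' := frob_unique L hI hτ hτ'
    have hmemP : P ∈ primesLe L (Subgroup.zpowers g) p := by
      refine ⟨hP, hpP, ?_⟩
      rw [hdec, ← hττ', hz]
    have e2 := hBC p hp (hC' p hpB)
    have hpos := decompWeight_pos_of_mem L _ hp hmemP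
    rw [← e2] at hpos
    have hne : primeCount (IntermediateField.fixedField (Subgroup.zpowers g)) p ≠ 0 := by
      intro h0
      rw [h0, zero_mul] at hpos
      exact lt_irrefl _ hpos
    refine ⟨p, hp, hpB, hne, ?_⟩
    have hτζ := frob_apply_root L hp (hm' p hp hpB) hmpos P hP hpP τ hτ hζ.pow_eq_one
    have hgmem : g ∈ Subgroup.zpowers τ := by
      rw [hz]
      exact Subgroup.mem_zpowers g
    obtain ⟨i, hi⟩ := (Submonoid.mem_powers_iff _ _).mp (mem_powers_iff_mem_zpowers.mpr hgmem)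
    refine ⟨i, ?_⟩
    rw [← autToPow_eq_natCast hζ τ hτζ, ← Units.val_pow_eq_pow_val, ← map_pow, hi]
  · intro p hp hpB hne hpa
    have e2 := hBC p hp (hC' p hpB)
    have hdw : decompWeight L (Subgroup.zpowers g) p ≠ 0 := by
      rw [← e2]
      exact Nat.mul_ne_zero hne hcardC.ne'
    obtain ⟨P, hP⟩ := exists_mem_primesLe L _ hp hdw
    obtain ⟨τ, hτ, hfrob, hτζ, hI, hP1, hP2⟩ := key p hp hpB _ P hP
    have h1 : hζ.autToPow ℚ τ = hζ.autToPow ℚ g := by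
      apply Units.ext
      rw [autToPow_eq_natCast hζ τ hτζ, hpa]
    have h2 : τ = g :=
      eq_of_mem_zpowers_of_apply_eq g hg hτ (apply_eq_of_autToPow_eq hζ h1)
    exact ⟨P, hP1, hP2, hI, h2 ▸ hfrob⟩

end cyc

end Fermat.Agent.Lib.Cheb.H581
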